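/-
S15P / (G2)-(RC), the degree input: for every level `N` and every residue field `k` with
`(N : k) ≠ 0` (characteristic `2` and `3` included),

  `[ℚ̄·F_N : ℚ̄(j)] = [F̄_N : k(j̄)]`,   `j = j(q)`.

Chain: `[F : ℚ̄(j(q))] = [F : ℚ̄(j(q^N))]` (Fricke, S24) `= [F̄ : k(j̄(q^N))]` (Gauss valuation,
`BaseFn.Data.ofJ`) `= [F̄ : k(j̄(q))]` (Fricke mod `ℓ`, `CAR/Ell/FrickeRed`).
-/
import Mathlib
import Fermat.Agent.CAR.Ell.FrickeRed
import Fermat.Agent.S24.FrickeRamif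
import Fermat.Agent.Lib.Red.BranchInst

set_option autoImplicit false
set_option linter.unusedSectionVars false
set_option linter.style.haveILetI false
set_option synthInstance.maxHeartbeats 400000

noncomputable section

namespace Fermat.Agent.S15P.RC51

open ModularCurve AlgebraicCurve Fermat.Agent.S28 Fermat.Agent.S24 Fermat.Agent.Lib.Red
open Fermat.Agent.CAR.Ell.FrickeRed
open scoped IntermediateField

variable (A : ValuationSubring KQ) {k : Type} [Field k] (π : A →+* k) (N : ℕ) [NeZero N]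

/-- The Fricke involution mod `ℓ` as an algebra homomorphism. -/
def frickeBarHom' (hπ : ∀ a : A, ¬ IsUnit a → π a = 0) (hsurj : Function.Surjective π)
    (hNk : (N : k) ≠ 0) :
    ↥(modularFunctionFieldFullC k N) →ₐ[k] ↥(modularFunctionFieldFullC k N) :=
  (frickeBar hπ hsurj hNk).toAlgHom

theorem frickeBarHom'_apply (hπ : ∀ a : A, ¬ IsUnit a → π a = 0) (hsurj : Function.Surjective π)
    (hNk : (N : k) ≠ 0) (z : ↥(modularFunctionFieldFullC k N)) :
    frickeBarHom' A π N hπ hsurj hNk z = frickeBar hπ hsurj hNk z := rfl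

theorem map_adjoin_xk (hπ : ∀ a : A, ¬ IsUnit a → π a = 0) (hsurj : Function.Surjective π)
    (hNk : (N : k) ≠ 0) :
    (k⟮xk k N⟯).map (frickeBarHom' A π N hπ hsurj hNk) =
      k⟮Fermat.Agent.Lib.FF.ModL.Jbar k N⟯ := by
  have h1 := IntermediateField.adjoin_map k ({xk k N} : Set ↥(modularFunctionFieldFullC k N))
    (frickeBarHom' A π N hπ hsurj hNk)
  have h2 : (frickeBarHom' A π N hπ hsurj hNk) '' ({xk k N} : Set ↥(modularFunctionFieldFullC k N))
      = {Fermat.Agent.Lib.FF.ModL.Jbar k N} := by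
    ext z
    constructor
    · rintro ⟨y, hy, rfl⟩
      rw [Set.mem_singleton_iff] at hy
      rw [hy, frickeBarHom'_apply, frickeBar_xk hπ hsurj hNk]
      exact Set.mem_singleton _
    · intro hz
      rw [Set.mem_singleton_iff] at hz
      exact ⟨xk k N, Set.mem_singleton _, by
        rw [hz, frickeBarHom'_apply, frickeBar_xk hπ hsurj hNk]⟩
  rw [h1, h2]

set_option maxHeartbeats 1600000 in
/-- `[F̄ : k(j̄(q^N))] = [F̄ : k(j̄(q))]`, by the Fricke involution mod `ℓ`. -/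
theorem finrank_xk_eq_Jbar (hπ : ∀ a : A, ¬ IsUnit a → π a = 0) (hsurj : Function.Surjective π)
    (hNk : (N : k) ≠ 0) :
    Module.finrank ↥(k⟮xk k N⟯) ↥(modularFunctionFieldFullC k N) =
      Module.finrank ↥(k⟮Fermat.Agent.Lib.FF.ModL.Jbar k N⟯) ↥(modularFunctionFieldFullC k N) := by
  let e1 : ↥(k⟮xk k N⟯) ≃ₐ[k] ↥((k⟮xk k N⟯).map (frickeBarHom' A π N hπ hsurj hNk)) :=
    IntermediateField.equivMap _ _
  let e2 : ↥((k⟮xk k N⟯).map (frickeBarHom' A π N hπ hsurj hNk)) ≃ₐ[k]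
      ↥(k⟮Fermat.Agent.Lib.FF.ModL.Jbar k N⟯) :=
    IntermediateField.equivOfEq (map_adjoin_xk A π N hπ hsurj hNk)
  refine Algebra.finrank_eq_of_equiv_equiv ((e1.trans e2 : _ ≃ₐ[k] _) : _ ≃+* _)
    ((frickeBar hπ hsurj hNk : _ ≃ₐ[k] _) : _ ≃+* _) ?_
  ext x
  rfl

/-- **The degree input**: `[F : ℚ̄(j)] = [F̄ : k(j̄)]`. -/
theorem finrank_jBar_eq_Jbar (hπ : ∀ a : A, ¬ IsUnit a → π a = 0)
    (hsurj : Function.Surjective π) (hNk : (N : k) ≠ 0) :
    Module.finrank ↥(KQ⟮jBar N⟯) (FN N) =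
      Module.finrank ↥(k⟮Fermat.Agent.Lib.FF.ModL.Jbar k N⟯) ↥(modularFunctionFieldFullC k N) := by
  rw [← finrank_xk_eq_Jbar A π N hπ hsurj hNk, ← BaseFn.Data.ofJ_xt A π N hπ hNk,
    ← (BaseFn.Data.ofJ A π N).finrank_eq hπ hsurj hNk, BaseFn.Data.ofJ_x,
    ← Fermat.Agent.S24.Fricke.finrank_jN_eq N]
  have h : xL KQ N = Fermat.Agent.S24.Fricke.jN N := BranchInst.xL_eq_jFormal N
  rw [h]

end Fermat.Agent.S15P.RC51
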