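/-
S15P / (G2)-(RC), abstract mass layer.

`r` a place reduction (`IsPlaceReductionAlong A π N r`), `x` a function of `L·F_N` given by an
`A`-integral series `X` whose reduction `x̄` is a function of the mod-`ℓ` field, both
transcendental, with `[F : L(x)] = [F̄ : k(x̄)]`.  Then

* poles of `x` reduce to poles of `x̄`, zeros of `x - b` (`b ∈ A`) to zeros of `x̄ - b̄`;
* zeros of `x - b` with `b ∉ A` reduce to poles of `x̄`;
* a place reduces to a pole of `x̄` iff it is a pole of `x` or a zero of some `x - b`, `b ∉ A`;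
* every pole of `x̄` is the reduction of a pole of `x`;
* the zeros of `x - b`, `b ∉ A`, over a pole `Q` of `x̄` have total mass `- ord_Q x̄`.
-/
import Mathlib
import Fermat.Agent.CAR.Ell.CuspMap
import Fermat.Agent.ESJ.Jac.DescentCore

set_option autoImplicit false
set_option linter.unusedSectionVars false
set_option linter.style.haveILetI false

noncomputable section

namespace Fermat.Agent.S15P.RC51

open ModularCurve AlgebraicCurve Fermat.Agent.Lib.Red
open scoped IntermediateField

/-! ### Combinatorics of push-forwards -/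

section Comb

variable {α β : Type*} [DecidableEq β]

theorem mapDomain_apply_eq_sum (r : α → β) (D : α →₀ ℤ) (Q : β) :
    Finsupp.mapDomain r D Q = ∑ P ∈ D.support, if r P = Q then D P else 0 := by
  rw [Finsupp.mapDomain, Finsupp.sum_apply]
  simp only [Finsupp.sum, Finsupp.single_apply]

theorem exists_neg_of_mapDomain_neg (r : α → β) (D : α →₀ ℤ) (Q : β)
    (h : Finsupp.mapDomain r D Q < 0) : ∃ P, r P = Q ∧ D P < 0 := by
  by_contra hcon
  push Not at hcon
  rw [mapDomain_apply_eq_sum] at h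
  have h2 : 0 ≤ ∑ P ∈ D.support, if r P = Q then D P else 0 :=
    Finset.sum_nonneg fun P _ => by
      split_ifs with hPQ
      · exact hcon P hPQ
      · exact le_rfl
  omega

theorem exists_neg_of_mapDomain_nonpos (r : α → β) (D : α →₀ ℤ) (Q : β)
    (h : Finsupp.mapDomain r D Q ≤ 0) (P₀ : α) (hP₀ : r P₀ = Q) (hpos : 0 < D P₀) :
    ∃ P, r P = Q ∧ D P < 0 := by
  by_contra hcon
  push Not at hcon
  rw [mapDomain_apply_eq_sum] at h
  have hmem : P₀ ∈ D.support := Finsupp.mem_support_iff.mpr (by omega)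
  have h2 : 0 < ∑ P ∈ D.support, if r P = Q then D P else 0 :=
    Finset.sum_pos' (fun P _ => by
      split_ifs with hPQ
      · exact hcon P hPQ
      · exact le_rfl) ⟨P₀, hmem, by rw [if_pos hP₀]; exact hpos⟩
  omega

theorem mapDomain_congr_fibre (r : α → β) (D D' : α →₀ ℤ) (Q : β)
    (h : ∀ P, r P = Q → D P = D' P) : Finsupp.mapDomain r D Q = Finsupp.mapDomain r D' Q := by
  have h0 : Finsupp.mapDomain r (D - D') Q = 0 := by
    rw [mapDomain_apply_eq_sum]
    refine Finset.sum_eq_zero fun P _ => ?_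
    split_ifs with hPQ
    · rw [Finsupp.sub_apply, h P hPQ, sub_self]
    · rfl
  calc Finsupp.mapDomain r D Q = Finsupp.mapDomain r ((D - D') + D') Q := by rw [sub_add_cancel]
    _ = Finsupp.mapDomain r D' Q := by rw [Finsupp.mapDomain_add, Finsupp.add_apply, h0, zero_add]

end Comb

/-! ### Integral functions -/

section Red

variable {L : Type*} [Field L] [Algebra ℚ L] [IsAlgClosed L] {A : ValuationSubring L}
  {k : Type} [Field k] [IsAlgClosed k] {π : A →+* k} {N : ℕ} [NeZero N]

theorem coe_algebraMap_L (c : L) :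
    ((algebraMap L ↥(laurentBaseChange L (modularFunctionFieldFull N)) c :
      ↥(laurentBaseChange L (modularFunctionFieldFull N))) : LaurentSeries L) = HahnSeries.C c := by
  show algebraMap L (LaurentSeries L) c = HahnSeries.C c
  have h1 : algebraMap L (PowerSeries L) c = PowerSeries.C c := by simp
  rw [HahnSeries.algebraMap_apply', h1, HahnSeries.ofPowerSeries_C]

theorem coe_algebraMap_k (c : k) :
    ((algebraMap k ↥(modularFunctionFieldFullC k N) c : ↥(modularFunctionFieldFullC k N)) :
      LaurentSeries k) = HahnSeries.C c := by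
  show algebraMap k (LaurentSeries k) c = HahnSeries.C c
  have h1 : algebraMap k (PowerSeries k) c = PowerSeries.C c := by simp
  rw [HahnSeries.algebraMap_apply', h1, HahnSeries.ofPowerSeries_C]

theorem coeffMap_C {R S : Type*} [CommRing R] [CommRing S] (f : R →+* S) (a : R) :
    coeffMap f (HahnSeries.C a) = HahnSeries.C (f a) :=
  coeffMap_single f 0 a

/-- **`r_* div f = div f̄`** for a function `f` given by an integral series `y` whose reduction
is a nonzero function `g`. -/
theorem exists_div_mapDomain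
    (x₀ : ↥(laurentBaseChange L (modularFunctionFieldFull N)))
    [FiniteDimensional ↥(L⟮x₀⟯) ↥(laurentBaseChange L (modularFunctionFieldFull N))]
    {r : Place L ↥(laurentBaseChange L (modularFunctionFieldFull N)) →
      Place k ↥(modularFunctionFieldFullC k N)}
    (hr : IsPlaceReductionAlong A π N r) (y : LaurentSeries A)
    (f : ↥(laurentBaseChange L (modularFunctionFieldFull N)))
    (hf : (f : LaurentSeries L) = coeffMap A.subtype y)
    (g : ↥(modularFunctionFieldFullC k N)) (hg : (g : LaurentSeries k) = coeffMap π y)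
    (hg0 : g ≠ 0) :
    ∃ D : Divisor L ↥(laurentBaseChange L (modularFunctionFieldFull N)),
      (∀ P, D P = P.ord f) ∧ ∀ Q, Finsupp.mapDomain r D Q = Q.ord g := by
  have hfin : {P : Place L ↥(laurentBaseChange L (modularFunctionFieldFull N)) |
      P.ord f ≠ 0}.Finite :=
    Fermat.Agent.Lib.FF.CharP.finite_ord_ne_zero x₀ f
  have hy : coeffMap A.subtype y ∈ laurentBaseChange L (modularFunctionFieldFull N) := by
    rw [← hf]
    exact f.2
  have hyk : coeffMap π y ∈ modularFunctionFieldFullC k N := by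
    rw [← hg]
    exact g.2
  have hne : coeffMap π y ≠ 0 := by
    intro h0
    exact hg0 (Subtype.ext (by rw [hg, h0]; rfl))
  have hfe : f = ⟨coeffMap A.subtype y, hy⟩ := Subtype.ext hf
  have hge : g = ⟨coeffMap π y, hyk⟩ := Subtype.ext hg
  refine ⟨Finsupp.ofSupportFinite (fun P => P.ord f) hfin, fun P => rfl, fun Q => ?_⟩
  rw [hge]
  exact hr.2 y hy hyk hne (Finsupp.ofSupportFinite (fun P => P.ord f) hfin)
    (fun P => by rw [← hfe]; rfl) Q

end Red

/-! ### The base function -/

section Base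

variable {L : Type*} [Field L] [Algebra ℚ L] [IsAlgClosed L] {A : ValuationSubring L}
  {k : Type} [Field k] [IsAlgClosed k] {π : A →+* k} {N : ℕ} [NeZero N]
  {r : Place L ↥(laurentBaseChange L (modularFunctionFieldFull N)) →
    Place k ↥(modularFunctionFieldFullC k N)}
  (hr : IsPlaceReductionAlong A π N r)
  (X : LaurentSeries A) (x : ↥(laurentBaseChange L (modularFunctionFieldFull N)))
  (hx : (x : LaurentSeries L) = coeffMap A.subtype X)
  (xb : ↥(modularFunctionFieldFullC k N)) (hxb : (xb : LaurentSeries k) = coeffMap π X)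
  (htrL : Transcendental L x) (htrk : Transcendental k xb)
  [FiniteDimensional ↥(L⟮x⟯) ↥(laurentBaseChange L (modularFunctionFieldFull N))]
  [FiniteDimensional ↥(k⟮xb⟯) ↥(modularFunctionFieldFullC k N)]

include htrL in
theorem sub_algebraMap_ne_zero_L (c : L) :
    x - algebraMap L ↥(laurentBaseChange L (modularFunctionFieldFull N)) c ≠ 0 := by
  intro h
  apply htrL
  rw [sub_eq_zero.mp h]
  exact isAlgebraic_algebraMap c

include htrk in
theorem sub_algebraMap_ne_zero_k (c : k) :
    xb - algebraMap k ↥(modularFunctionFieldFullC k N) c ≠ 0 := by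
  intro h
  apply htrk
  rw [sub_eq_zero.mp h]
  exact isAlgebraic_algebraMap c

include hr hx hxb htrk in
/-- `r_* div x = div x̄`. -/
theorem exists_div_x :
    ∃ E : Divisor L ↥(laurentBaseChange L (modularFunctionFieldFull N)),
      (∀ P, E P = P.ord x) ∧ ∀ Q, Finsupp.mapDomain r E Q = Q.ord xb := by
  refine exists_div_mapDomain x hr X x hx xb hxb ?_
  intro h
  apply htrk
  rw [h]
  exact isAlgebraic_zero

include hr hx hxb htrk in
/-- `r_* div (x - b) = div (x̄ - b̄)` for `b ∈ A`. -/
theorem exists_div_sub (b : A) :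
    ∃ D : Divisor L ↥(laurentBaseChange L (modularFunctionFieldFull N)),
      (∀ P, D P = P.ord (x - algebraMap L _ (b : L))) ∧
        ∀ Q, Finsupp.mapDomain r D Q = Q.ord (xb - algebraMap k _ (π b)) := by
  refine exists_div_mapDomain x hr (X - HahnSeries.C b) (x - algebraMap L _ (b : L)) ?_
    (xb - algebraMap k _ (π b)) ?_ (sub_algebraMap_ne_zero_k xb htrk _)
  · show (x : LaurentSeries L) - ((algebraMap L ↥(laurentBaseChange L
      (modularFunctionFieldFull N)) (b : L) : ↥(laurentBaseChange L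
      (modularFunctionFieldFull N))) : LaurentSeries L) = _
    rw [coe_algebraMap_L, hx, map_sub, coeffMap_C]
    rfl
  · show (xb : LaurentSeries k) - ((algebraMap k ↥(modularFunctionFieldFullC k N) (π b) :
      ↥(modularFunctionFieldFullC k N)) : LaurentSeries k) = _
    rw [coe_algebraMap_k, hxb, map_sub, coeffMap_C]

include hr hx hxb htrL in
/-- `r_* div (x - b) = 0` for `b ∉ A`: the function `b⁻¹ x - 1` reduces to `-1`. -/
theorem exists_div_sub_of_notMem (hπ : ∀ a : A, ¬ IsUnit a → π a = 0) (b : L) (hb : b ∉ A) :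
    ∃ D : Divisor L ↥(laurentBaseChange L (modularFunctionFieldFull N)),
      (∀ P, D P = P.ord (x - algebraMap L _ b)) ∧ ∀ Q, Finsupp.mapDomain r D Q = 0 := by
  have hb0 : b ≠ 0 := fun h => hb (by rw [h]; exact A.zero_mem)
  have hbi : b⁻¹ ∈ A := (A.mem_or_inv_mem b).resolve_left hb
  have hnu : ¬ IsUnit (⟨b⁻¹, hbi⟩ : A) := by
    intro hu
    obtain ⟨c, hc⟩ := isUnit_iff_exists_inv.mp hu
    have h1 : b⁻¹ * (c : L) = 1 := congrArg Subtype.val hc
    have h2 : (c : L) = b := by
      field_simp at h1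
      exact h1
    exact hb (h2 ▸ c.2)
  have hπb : π ⟨b⁻¹, hbi⟩ = 0 := hπ _ hnu
  have hxne := sub_algebraMap_ne_zero_L x htrL b
  have hbne : algebraMap L ↥(laurentBaseChange L (modularFunctionFieldFull N)) b⁻¹ ≠ 0 :=
    (map_ne_zero _).mpr (inv_ne_zero hb0)
  obtain ⟨D, hD, hpush⟩ := exists_div_mapDomain x hr (HahnSeries.C (⟨b⁻¹, hbi⟩ : A) * X - 1)
    (algebraMap L _ b⁻¹ * (x - algebraMap L _ b)) (by
      show ((algebraMap L ↥(laurentBaseChange L (modularFunctionFieldFull N)) b⁻¹ :
          ↥(laurentBaseChange L (modularFunctionFieldFull N))) : LaurentSeries L) *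
        ((x : LaurentSeries L) - ((algebraMap L ↥(laurentBaseChange L
          (modularFunctionFieldFull N)) b : ↥(laurentBaseChange L
          (modularFunctionFieldFull N))) : LaurentSeries L)) = _
      rw [coe_algebraMap_L, coe_algebraMap_L, hx, map_sub, map_mul, coeffMap_C, map_one,
        mul_sub, ← map_mul, inv_mul_cancel₀ hb0, map_one]
      rfl)
    (-1 : ↥(modularFunctionFieldFullC k N)) (by
      show -(1 : LaurentSeries k) = _
      rw [map_sub, map_mul, coeffMap_C, hπb, map_zero, zero_mul, map_one, zero_sub])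
    (neg_ne_zero.mpr one_ne_zero)
  refine ⟨D, fun P => ?_, fun Q => ?_⟩
  · rw [hD P, P.ord_mul hbne hxne, Fermat.Agent.S24.ord_algebraMap, zero_add]
  · rw [hpush Q]
    have h1 : (-1 : ↥(modularFunctionFieldFullC k N)) = algebraMap k _ (-1) := by
      rw [map_neg, map_one]
    rw [h1, Fermat.Agent.S24.ord_algebraMap]

variable (hdeg : Module.finrank ↥(L⟮x⟯) ↥(laurentBaseChange L (modularFunctionFieldFull N)) =
  Module.finrank ↥(k⟮xb⟯) ↥(modularFunctionFieldFullC k N))

include hr hx hxb htrL htrk hdeg in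
/-- **Poles specialise to poles.** -/
theorem ord_red_neg_of_ord_neg (P : Place L ↥(laurentBaseChange L (modularFunctionFieldFull N)))
    (hP : P.ord x < 0) : (r P).ord xb < 0 := by
  classical
  obtain ⟨D, hD, hpush⟩ := exists_div_x hr X x hx xb hxb htrk
  obtain ⟨hZL, hsumL⟩ := Fermat.Agent.Lib.FF.CharP.polesOf_finite_sum x htrL
  obtain ⟨hZk, hsumk⟩ := Fermat.Agent.Lib.FF.CharP.polesOf_finite_sum xb htrk
  have hpush' : ∀ Q, Finsupp.mapDomain r (-D) Q = -Q.ord xb := by
    intro Q
    rw [← Finsupp.mapDomain.addMonoidHom_apply, map_neg, Finsupp.mapDomain.addMonoidHom_apply,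
      Finsupp.neg_apply, hpush Q]
  have hZ : ∀ P', P' ∈ hZL.toFinset ↔ 0 < (-D) P' := by
    intro P'
    rw [Set.Finite.mem_toFinset, Finsupp.neg_apply, hD]
    show P'.ord x < 0 ↔ _
    omega
  have hsum : ∑ P' ∈ hZL.toFinset, (-D) P' ≤ ∑ Q ∈ hZk.toFinset, -Q.ord xb := by
    rw [hsumk, ← hdeg, ← hsumL]
    exact le_of_eq (Finset.sum_congr rfl fun P' _ => by rw [Finsupp.neg_apply, hD])
  have hmem := Fermat.Agent.CAR.Ell.mapsTo_of_mapDomain r (-D) _ hpush' hZL.toFinset hZ
    hZk.toFinset hsum P ((hZ P).mpr (by rw [Finsupp.neg_apply, hD]; omega))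
  rw [Set.Finite.mem_toFinset] at hmem
  exact hmem

include hr hx hxb htrL htrk hdeg in
/-- **Zeros of `x - b`, `b ∈ A`, specialise to zeros of `x̄ - b̄`.** -/
theorem ord_red_sub_pos_of_ord_sub_pos (b : A)
    (P : Place L ↥(laurentBaseChange L (modularFunctionFieldFull N)))
    (hP : 0 < P.ord (x - algebraMap L _ (b : L))) :
    0 < (r P).ord (xb - algebraMap k _ (π b)) := by
  classical
  obtain ⟨D, hD, hpush⟩ := exists_div_sub hr X x hx xb hxb htrk b
  obtain ⟨hZL, hsumL⟩ := Fermat.Agent.Lib.FF.CharP.placesOver_finite_sum x htrL (b : L)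
  obtain ⟨hZk, hsumk⟩ := Fermat.Agent.Lib.FF.CharP.placesOver_finite_sum xb htrk (π b)
  have hZ : ∀ P', P' ∈ hZL.toFinset ↔ 0 < D P' := by
    intro P'
    rw [Set.Finite.mem_toFinset, hD]
    rfl
  have hsum : ∑ P' ∈ hZL.toFinset, D P' ≤
      ∑ Q ∈ hZk.toFinset, Q.ord (xb - algebraMap k _ (π b)) := by
    rw [hsumk, ← hdeg, ← hsumL]
    exact le_of_eq (Finset.sum_congr rfl fun P' _ => hD P')
  have hmem := Fermat.Agent.CAR.Ell.mapsTo_of_mapDomain r D _ hpush hZL.toFinset hZ
    hZk.toFinset hsum P ((hZ P).mpr (by rw [hD]; exact hP))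
  rw [Set.Finite.mem_toFinset] at hmem
  exact hmem

include hr hx hxb htrL htrk hdeg in
/-- **Zeros of `x - b`, `b ∉ A`, specialise to poles.** -/
theorem ord_red_neg_of_ord_sub_pos (hπ : ∀ a : A, ¬ IsUnit a → π a = 0) (b : L) (hb : b ∉ A)
    (P : Place L ↥(laurentBaseChange L (modularFunctionFieldFull N)))
    (hP : 0 < P.ord (x - algebraMap L _ b)) : (r P).ord xb < 0 := by
  classical
  obtain ⟨D, hD, hpush⟩ := exists_div_sub_of_notMem hr X x hx xb hxb htrL hπ b hb
  obtain ⟨P', hP', hneg⟩ := exists_neg_of_mapDomain_nonpos r D (r P) (by rw [hpush]) P rfl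
    (by rw [hD]; exact hP)
  rw [hD] at hneg
  have hx' : P'.ord x < 0 := by
    by_contra hcon
    have := Fermat.Agent.ESJ.Jac.DescentCore.ord_sub_const_nonneg P' (not_lt.mp hcon) b
      (sub_algebraMap_ne_zero_L x htrL b)
    omega
  rw [← hP']
  exact ord_red_neg_of_ord_neg hr X x hx xb hxb htrL htrk hdeg P' hx'

include hr hx hxb htrL htrk hdeg in
/-- **(RC1), abstract form**: a place reduces to a pole of `x̄` iff it is a pole of `x` or a zero
of `x - b` for some `b ∉ A`. -/
theorem ord_red_neg_iff (hπ : ∀ a : A, ¬ IsUnit a → π a = 0)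
    (P : Place L ↥(laurentBaseChange L (modularFunctionFieldFull N))) :
    (r P).ord xb < 0 ↔
      (P.ord x < 0 ∨ ∃ b : L, b ∉ A ∧ 0 < P.ord (x - algebraMap L _ b)) := by
  constructor
  · intro hQ
    haveI : Algebra.IsAlgebraic ↥(L⟮x⟯) ↥(laurentBaseChange L (modularFunctionFieldFull N)) :=
      Algebra.IsAlgebraic.of_finite _ _
    rcases Fermat.Agent.S24.exists_value_of_isAlgebraic x P with h | ⟨c, hc⟩
    · exact Or.inl h
    · refine Or.inr ⟨c, fun hcA => ?_, hc⟩
      have h1 := ord_red_sub_pos_of_ord_sub_pos hr X x hx xb hxb htrL htrk hdeg ⟨c, hcA⟩ P hc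
      rw [Fermat.Agent.ESJ.Jac.DescentCore.ord_sub_const_of_neg (r P) hQ] at h1
      omega
  · rintro (h | ⟨b, hb, hP⟩)
    · exact ord_red_neg_of_ord_neg hr X x hx xb hxb htrL htrk hdeg P h
    · exact ord_red_neg_of_ord_sub_pos hr X x hx xb hxb htrL htrk hdeg hπ b hb P hP

include hr hx hxb htrk in
/-- **(RC2), abstract form**: every pole of `x̄` is the reduction of a pole of `x`. -/
theorem exists_pole_of_red_pole (Q : Place k ↥(modularFunctionFieldFullC k N))
    (hQ : Q.ord xb < 0) :
    ∃ P : Place L ↥(laurentBaseChange L (modularFunctionFieldFull N)), P.ord x < 0 ∧ r P = Q := by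
  classical
  obtain ⟨E, hE, hpush⟩ := exists_div_x hr X x hx xb hxb htrk
  obtain ⟨P, hP, hneg⟩ := exists_neg_of_mapDomain_neg r E Q (by rw [hpush]; exact hQ)
  exact ⟨P, by rw [← hE]; exact hneg, hP⟩

include hr hx hxb htrL htrk hdeg in
/-- **(RC6), abstract form**: the zeros of `x - b`, `b ∉ A`, in the fibre of a pole `Q` of `x̄`
have total mass `- ord_Q x̄`. -/
theorem mapDomain_zeros_eq (hπ : ∀ a : A, ¬ IsUnit a → π a = 0) (b : L) (hb : b ∉ A)
    (Q : Place k ↥(modularFunctionFieldFullC k N)) (hQ : Q.ord xb < 0)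
    (D : Divisor L ↥(laurentBaseChange L (modularFunctionFieldFull N)))
    (hD : ∀ P, D P = max (P.ord (x - algebraMap L _ b)) 0) :
    Finsupp.mapDomain r D Q = -Q.ord xb := by
  classical
  obtain ⟨E, hE, hpushE⟩ := exists_div_x hr X x hx xb hxb htrk
  obtain ⟨D₁, hD₁, hpush₁⟩ := exists_div_sub_of_notMem hr X x hx xb hxb htrL hπ b hb
  have hfib : Finsupp.mapDomain r (D + E) Q = Finsupp.mapDomain r D₁ Q := by
    refine mapDomain_congr_fibre r (D + E) D₁ Q fun P hPQ => ?_
    rw [Finsupp.add_apply, hD, hE, hD₁]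
    rcases lt_or_ge (P.ord x) 0 with hneg | hnn
    · rw [Fermat.Agent.ESJ.Jac.DescentCore.ord_sub_const_of_neg P hneg, max_eq_right hneg.le,
        zero_add]
    · have h1 := Fermat.Agent.ESJ.Jac.DescentCore.ord_sub_const_nonneg P hnn b
        (sub_algebraMap_ne_zero_L x htrL b)
      have h2 : P.ord x = 0 := by
        by_contra hne
        have hpos : 0 < P.ord (x - algebraMap L _ ((0 : A) : L)) := by
          rw [ZeroMemClass.coe_zero, map_zero, sub_zero]
          omega
        have h3 := ord_red_sub_pos_of_ord_sub_pos hr X x hx xb hxb htrL htrk hdeg 0 P hpos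
        rw [map_zero, map_zero, sub_zero, hPQ] at h3
        omega
      rw [max_eq_left h1, h2, add_zero]
  rw [Finsupp.mapDomain_add, Finsupp.add_apply, hpushE, hpush₁] at hfib
  omega

end Base

end Fermat.Agent.S15P.RC51
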