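/-
S15P / (G2)-(RC): the reduction core for `j = j(q)` at ANY level `N` and ANY residue
characteristic not dividing `N` — (RC1) both directions, (RC2), (RC6), first for an arbitrary
place reduction `r` (`IsPlaceReductionAlong A π N r`), then in the vocabulary of `M6/Defs.lean`
for `r = placeReductionModL h`.
-/
import Mathlib
import Fermat.Agent.S15P.RC51.Mass
import Fermat.Agent.S15P.RC51.Deg
import Fermat.Agent.S15P.M6.Defs
import Fermat.Agent.Lib.FF.CharP.ModLInst
import Fermat.Agent.ESJ.Cong.NormRedAnalytic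

set_option autoImplicit false
set_option linter.unusedSectionVars false
set_option linter.style.haveILetI false
set_option synthInstance.maxHeartbeats 400000

noncomputable section

namespace Fermat.Agent.S15P.RC51

open ModularCurve AlgebraicCurve Fermat.Agent.S28 Fermat.Agent.S24 Fermat.Agent.Lib.Red
open scoped IntermediateField

/-! ### Any place reduction -/

section JGen

variable (A : ValuationSubring KQ) {k : Type} [Field k] [IsAlgClosed k] (π : A →+* k) (N : ℕ)
  [NeZero N]

theorem coe_jBar_eq :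
    ((jBar N : FN N) : LaurentSeries KQ) = coeffMap A.subtype (TD.Jd A 1) :=
  congrArg Subtype.val (Fermat.Agent.CAR.Ell.FrickeRed.jFormal_eq A N ⟨1, one_dvd N⟩)

theorem coe_Jbar_eq :
    ((Fermat.Agent.Lib.FF.ModL.Jbar k N : ↥(modularFunctionFieldFullC k N)) : LaurentSeries k) =
      coeffMap π (TD.Jd A 1) := by
  rw [TD.coeffMap_Jd, TD.Jd_one]
  rfl

variable {A π N}
variable (hπ : ∀ a : A, ¬ IsUnit a → π a = 0) (hsurj : Function.Surjective π)
  (hNk : (N : k) ≠ 0)
  {r : Place KQ (FN N) → Place k ↥(modularFunctionFieldFullC k N)}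
  (hr : IsPlaceReductionAlong A π N r)

include hπ hsurj hNk hr in
/-- **(RC1)** for any place reduction. -/
theorem jBar_red_neg_iff (P : Place KQ (FN N)) :
    (r P).ord (Fermat.Agent.Lib.FF.ModL.Jbar k N) < 0 ↔
      (P.ord (jBar N) < 0 ∨ ∃ b : KQ, b ∉ A ∧ 0 < P.ord (jBar N - algebraMap KQ (FN N) b)) := by
  haveI := Fermat.Agent.S24.finiteDimensional_jBar N
  haveI := Fermat.Agent.Lib.FF.ModL.finiteDimensional_Jbar k N
  exact ord_red_neg_iff hr (TD.Jd A 1) (jBar N) (coe_jBar_eq A N)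
    (Fermat.Agent.Lib.FF.ModL.Jbar k N) (coe_Jbar_eq A π N) (Fermat.Agent.S24.transcendental_jBar N)
    (Fermat.Agent.Lib.FF.ModL.transcendental_Jbar k N) (finrank_jBar_eq_Jbar A π N hπ hsurj hNk)
    hπ P

include hr in
/-- **(RC2)** for any place reduction. -/
theorem jBar_exists_pole (Q : Place k ↥(modularFunctionFieldFullC k N))
    (hQ : Q.ord (Fermat.Agent.Lib.FF.ModL.Jbar k N) < 0) :
    ∃ P : Place KQ (FN N), P.ord (jBar N) < 0 ∧ r P = Q := by
  haveI := Fermat.Agent.S24.finiteDimensional_jBar N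
  haveI := Fermat.Agent.Lib.FF.ModL.finiteDimensional_Jbar k N
  exact exists_pole_of_red_pole hr (TD.Jd A 1) (jBar N) (coe_jBar_eq A N)
    (Fermat.Agent.Lib.FF.ModL.Jbar k N) (coe_Jbar_eq A π N)
    (Fermat.Agent.Lib.FF.ModL.transcendental_Jbar k N) Q hQ

include hπ hsurj hNk hr in
/-- **(RC6)** for any place reduction. -/
theorem jBar_mass (b : KQ) (hb : b ∉ A) (Q : Place k ↥(modularFunctionFieldFullC k N))
    (hQ : Q.ord (Fermat.Agent.Lib.FF.ModL.Jbar k N) < 0) (D : Divisor KQ (FN N))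
    (hD : ∀ P, D P = max (P.ord (jBar N - algebraMap KQ (FN N) b)) 0) :
    Finsupp.mapDomain r D Q = -Q.ord (Fermat.Agent.Lib.FF.ModL.Jbar k N) := by
  haveI := Fermat.Agent.S24.finiteDimensional_jBar N
  haveI := Fermat.Agent.Lib.FF.ModL.finiteDimensional_Jbar k N
  exact mapDomain_zeros_eq hr (TD.Jd A 1) (jBar N) (coe_jBar_eq A N)
    (Fermat.Agent.Lib.FF.ModL.Jbar k N) (coe_Jbar_eq A π N) (Fermat.Agent.S24.transcendental_jBar N)
    (Fermat.Agent.Lib.FF.ModL.transcendental_Jbar k N) (finrank_jBar_eq_Jbar A π N hπ hsurj hNk)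
    hπ b hb Q hQ D hD

end JGen

/-! ### The literals, in the vocabulary of `M6/Defs.lean` -/

section RC

open Fermat.Agent.S15P.M6

theorem jbar_one_eq (k : Type*) [Field k] (N : ℕ) [NeZero N] :
    jbar k N 1 (one_dvd N) = Fermat.Agent.Lib.FF.ModL.Jbar k N :=
  Subtype.ext (qExpand_one_apply _)

variable {M ℓ : ℕ} [NeZero M] (hℓ : ℓ.Prime) (hℓM : ¬ ℓ ∣ M) (A : ValuationSubring KQ)
  (hA : A.LiesOverPrime ℓ) (h : ReductionInputsModL A M)

theorem residue_eq_zero_of_not_isUnit (a : A) (ha : ¬ IsUnit a) : IsLocalRing.residue A a = 0 :=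
  (IsLocalRing.residue_eq_zero_iff a).mpr ha

include hℓ hℓM hA in
theorem natCast_residueField_ne_zero : ((M : ℕ) : IsLocalRing.ResidueField A) ≠ 0 := by
  haveI : CharP (IsLocalRing.ResidueField A) ℓ :=
    Fermat.Agent.ESJ.Cong.ConjAnalytic.charP_residueField_of_liesOver A hℓ hA
  rw [Ne, CharP.cast_eq_zero_iff (IsLocalRing.ResidueField A) ℓ]
  exact hℓM

include hℓ hℓM hA in
/-- **(RC1)** a place reduces to a pole of `j̄` iff it is non-integral. -/
theorem red_pole_iff (P : Place KQ (FN M)) :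
    (placeReductionModL h P).ord (jbar _ M 1 (one_dvd M)) < 0 ↔ NonInt A P := by
  haveI := Fermat.Agent.Lib.FF.CharP.isAlgClosed_residueField A
  rw [jbar_one_eq]
  exact jBar_red_neg_iff (residue_eq_zero_of_not_isUnit A) IsLocalRing.residue_surjective
    (natCast_residueField_ne_zero hℓ hℓM A hA) (isPlaceReductionModL_placeReductionModL h) P

/-- **(RC2)** every pole of `j̄` is the reduction of a cusp. -/
theorem red_exists_cusp
    (Q : Place (IsLocalRing.ResidueField A) (modularFunctionFieldFullC _ M))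
    (hQ : Q.ord (jbar _ M 1 (one_dvd M)) < 0) :
    ∃ c : Place KQ (FN M), c.ord (jFormal M ⟨1, one_dvd M⟩) < 0 ∧ placeReductionModL h c = Q := by
  haveI := Fermat.Agent.Lib.FF.CharP.isAlgClosed_residueField A
  rw [jbar_one_eq] at hQ
  exact jBar_exists_pole (isPlaceReductionModL_placeReductionModL h) Q hQ

include hℓ hℓM hA in
/-- **(RC6)** mass formula over a pole of `j̄`: the zeros of `j - b` (`b ∉ A`) in the fibre. -/
theorem red_mass (b : KQ) (hb : b ∉ A)
    (Q : Place (IsLocalRing.ResidueField A) (modularFunctionFieldFullC _ M))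
    (hQ : Q.ord (jbar _ M 1 (one_dvd M)) < 0) (D : Divisor KQ (FN M))
    (hD : ∀ P, D P = max (P.ord (jFormal M ⟨1, one_dvd M⟩ - algebraMap KQ (FN M) b)) 0) :
    Finsupp.mapDomain (placeReductionModL h) D Q = -Q.ord (jbar _ M 1 (one_dvd M)) := by
  haveI := Fermat.Agent.Lib.FF.CharP.isAlgClosed_residueField A
  rw [jbar_one_eq] at hQ ⊢
  exact jBar_mass (residue_eq_zero_of_not_isUnit A) IsLocalRing.residue_surjective
    (natCast_residueField_ne_zero hℓ hℓM A hA) (isPlaceReductionModL_placeReductionModL h) b hb Q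
    hQ D hD

end RC

end Fermat.Agent.S15P.RC51
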